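import Fermat.Agent.Lib.Mazur.G.Pl.Place
import Fermat.Agent.Lib.Mazur.G.CV.Main

/-!
# ISOG (S12), package (P2-Pl): the chain of places of `X₀(p)` attached to `τ, pτ, p²τ, …`

* `mz2p_eval_iff`: `mzgp_eval` as an equivalence — at the point place of `τ₀`, a function `u` with
  the `q`-expansion of a holomorphic `ψ` takes the value `a` iff `ι a = ψ(τ₀)`.  So values at point
  places are read off analytically.
* `mz2p_place`: the place of `X₀(p)` at `τ` with `j(τ) = ι j₁`, `U_p(τ) = ι U₁`, together with the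
  value `j₂` of `j_p = j(p·)`: `ι j₂ = j(pτ)`.
* `mz2p_chain`: the chain of places `x_i` at `p^i τ`, `i < k`, with
  `j(x_i) = J_i`, `U_p(x_i) = U_i`, `j_p(x_i) = J_{i+1}`.
-/

set_option autoImplicit false
set_option linter.unusedSectionVars false
set_option linter.unusedVariables false
set_option synthInstance.maxHeartbeats 200000

namespace Fermat.Agent.Mazur2

open Fermat.Agent.T1.KMod Fermat.Agent.Mazur
open Fermat.Agent.S24Lib (jFun ordAt holH ordValuation)
open scoped Manifold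
open UpperHalfPlane WithZero ModularCurve ModularForm
open AlgebraicCurve Fermat.Agent.Curve Fermat.Agent.Curve.PlaceAux Fermat.Agent.Igusa
  Fermat.Agent.T1 Fermat.Agent.T2
open Fermat.Agent.ES (IsQLaurentable qLaurent)

local notation "Qb" => AlgebraicClosure ℚ
local notation "Δ" => ModularForm.discriminant

section Eval

variable (𝕜 : Type) [Field 𝕜] [IsAlgClosed 𝕜] [Algebra 𝕜 ℂ] [Algebra ℚ 𝕜] (N : ℕ) [NeZero N]

/-- **Evaluation at a point, as an equivalence.** -/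
theorem mz2p_eval_iff (u : ModField 𝕜 N) (ψ : ℍ → ℂ) (hψ : IsQLaurentable N ψ)
    (hu : modFieldQL 𝕜 N u = qLaurent N ψ) (τ₀ : ℍ) (j₁ : 𝕜)
    (hj : algebraMap 𝕜 ℂ j₁ = jFun τ₀) (a : 𝕜)
    (hne : u ≠ algebraMap 𝕜 (ModField 𝕜 N) a) :
    0 < (pointPlace 𝕜 N τ₀ j₁ hj).ord (u - algebraMap 𝕜 (ModField 𝕜 N) a) ↔
      algebraMap 𝕜 ℂ a = ψ τ₀ := by
  obtain ⟨f, g, hg, rfl⟩ := IsFractionRing.div_surjective (A := modRing 𝕜 N) u
  have hg0 : g ≠ 0 := nonZeroDivisors.ne_zero hg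
  have hgL : algebraMap (modRing 𝕜 N) (ModField 𝕜 N) g ≠ 0 := by simpa using hg0
  have hfQ := (modRing_props 𝕜 N f.2).1
  have hgQ := (modRing_props 𝕜 N g.2).1
  -- `f = ψ g` as functions
  have hfg : (f : ℍ → ℂ) = fun z => ψ z * (g : ℍ → ℂ) z := by
    have h1 : qLaurent N (f : ℍ → ℂ) = qLaurent N ψ * qLaurent N (g : ℍ → ℂ) := by
      rw [← hu, map_div₀, modFieldQL_algebraMap 𝕜, modFieldQL_algebraMap 𝕜, modRingQL_apply 𝕜,
        modRingQL_apply 𝕜, div_mul_cancel₀]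
      rw [← modRingQL_apply 𝕜]
      intro h0
      exact hg0 (modRingQL_injective 𝕜 N (h0.trans (map_zero _).symm))
    have h2 : qLaurent N (fun z => (f : ℍ → ℂ) z - ψ z * (g : ℍ → ℂ) z) = 0 := by
      rw [Fermat.Agent.ES.qLaurent_sub hfQ (hψ.mul hgQ), Fermat.Agent.ES.qLaurent_mul hψ hgQ, h1,
        sub_self]
    have h3 := (Fermat.Agent.ES.qLaurent_eq_zero_iff (hfQ.sub (hψ.mul hgQ))).mp h2
    funext z
    have := congrFun h3 z
    simp only [Pi.zero_apply] at this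
    exact sub_eq_zero.mp this
  -- the numerator of `u - a`
  set h : modRing 𝕜 N := f - algebraMap 𝕜 (modRing 𝕜 N) a * g with hh
  have hdiv : algebraMap (modRing 𝕜 N) (ModField 𝕜 N) f / algebraMap (modRing 𝕜 N) (ModField 𝕜 N) g
      - algebraMap 𝕜 (ModField 𝕜 N) a
      = algebraMap (modRing 𝕜 N) (ModField 𝕜 N) h / algebraMap (modRing 𝕜 N) (ModField 𝕜 N) g := by
    rw [hh, map_sub, map_mul, ← IsScalarTower.algebraMap_apply 𝕜 (modRing 𝕜 N) (ModField 𝕜 N)]
    field_simp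
  have hh0 : h ≠ 0 := by
    intro h0
    apply hne
    have := hdiv
    rw [h0, map_zero, zero_div] at this
    exact sub_eq_zero.mp this
  have hhL : algebraMap (modRing 𝕜 N) (ModField 𝕜 N) h ≠ 0 := by simpa using hh0
  rw [hdiv, pointPlace, S24Lib.fracPlace,
    placeOfValuation_ord_pos_iff _ _ _ _ (div_ne_zero hhL hgL),
    map_div₀, S24Lib.fracValuation_algebraMap, S24Lib.fracValuation_algebraMap]
  -- compare the point valuations of `h` and `g`
  have hψm : MDiff ψ := hψ.mdiff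
  let Ψ : holH := ⟨fun z => ψ z - algebraMap 𝕜 ℂ a, hψm.sub mdifferentiable_const⟩
  have hmul : modRingToHol 𝕜 N h = Ψ * modRingToHol 𝕜 N g := by
    apply Subtype.ext
    funext z
    show (h : ℍ → ℂ) z = (ψ z - algebraMap 𝕜 ℂ a) * (g : ℍ → ℂ) z
    have h1 : (h : ℍ → ℂ) z = (f : ℍ → ℂ) z - algebraMap 𝕜 ℂ a * (g : ℍ → ℂ) z := rfl
    rw [h1, hfg]
    ring
  have hΨ0 : Ψ ≠ 0 := by
    intro h0
    rw [h0, zero_mul] at hmul
    exact hh0 (modRingToHol_injective 𝕜 N (hmul.trans (map_zero _).symm))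
  have hwg : pointValuation 𝕜 N τ₀ g ≠ 0 := fun h0 => hg0 (pointValuation_eq_zero 𝕜 N τ₀ g h0)
  have hwh : pointValuation 𝕜 N τ₀ h = ordValuation τ₀ Ψ * pointValuation 𝕜 N τ₀ g := by
    show ordValuation τ₀ (modRingToHol 𝕜 N h) = _
    rw [hmul, map_mul]
    rfl
  rw [hwh, mul_div_assoc, div_self hwg, mul_one]
  rw [S24Lib.ordValuation_apply hΨ0, ← exp_zero, exp_lt_exp]
  have h2 : ordAt (Ψ : ℍ → ℂ) τ₀ ≠ ⊤ := S24Lib.ordAt_ne_top hΨ0 τ₀
  have hz : ordAt (Ψ : ℍ → ℂ) τ₀ = 0 ↔ ψ τ₀ - algebraMap 𝕜 ℂ a ≠ 0 :=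
    S24Lib.ordAt_eq_zero_iff Ψ.2 τ₀
  constructor
  · intro hlt
    by_contra hne'
    have h0 : ordAt (Ψ : ℍ → ℂ) τ₀ = 0 :=
      hz.mpr (fun h0 => hne' (sub_eq_zero.mp h0).symm)
    rw [h0] at hlt
    simp at hlt
  · intro ha
    have h1 : ordAt (Ψ : ℍ → ℂ) τ₀ ≠ 0 := by
      rw [Ne, hz, ha, sub_self]
      simp
    have h3 : (ordAt (Ψ : ℍ → ℂ) τ₀).toNat ≠ 0 := by
      rw [Ne, ENat.toNat_eq_zero]
      tauto
    omega

end Eval

section Bar

variable {p : ℕ} [NeZero p]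

open Fermat.Agent.S24Lib in
/-- evaluation at the place of `X₀(p)` over `ℚ̄` attached to `τ` -/
theorem mz2p_bar_eval_iff (u : ↥(modularFunctionFieldBar p)) (ψ : ℍ → ℂ)
    (hψ : IsQLaurentable p ψ)
    (hu : modFieldQL Qb p ((modIso Qb p u : anField Qb p) : ModField Qb p) = qLaurent p ψ)
    (τ : ℍ) (j₁ : Qb) (hj : algebraMap Qb ℂ j₁ = jFun τ) (a : Qb)
    (hne : u ≠ algebraMap Qb ↥(modularFunctionFieldBar p) a) :
    0 < (barPlace Qb p (pointPlace Qb p τ j₁ hj)).ord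
        (u - algebraMap Qb ↥(modularFunctionFieldBar p) a) ↔ algebraMap Qb ℂ a = ψ τ := by
  set x₀ := pointPlace Qb p τ j₁ hj with hx₀
  obtain ⟨e, he, hord⟩ := exists_ord_barPlace Qb p x₀
  have h1 := hord (u - algebraMap Qb ↥(modularFunctionFieldBar p) a)
  have h2 : ((modIso Qb p (u - algebraMap Qb ↥(modularFunctionFieldBar p) a) :
      anField Qb p) : ModField Qb p)
      = ((modIso Qb p u : anField Qb p) : ModField Qb p) - algebraMap Qb (ModField Qb p) a := by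
    rw [map_sub, AlgEquiv.commutes]
    rfl
  rw [h2] at h1
  have hne' : ((modIso Qb p u : anField Qb p) : ModField Qb p) ≠
      algebraMap Qb (ModField Qb p) a := by
    intro h0
    apply hne
    have : modIso Qb p u = modIso Qb p (algebraMap Qb ↥(modularFunctionFieldBar p) a) := by
      apply Subtype.ext
      rw [h0, AlgEquiv.commutes]
      rfl
    exact (modIso Qb p).injective this
  have h3 := mz2p_eval_iff Qb p _ ψ hψ hu τ j₁ hj a hne'
  rw [← hx₀, h1] at h3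
  rw [← h3]
  have heZ : (0 : ℤ) < (e : ℤ) := by exact_mod_cast he
  constructor
  · intro h; exact mul_pos heZ h
  · intro h; exact (pos_iff_pos_of_mul_pos h).mp heZ

/-- the analytic function `τ ↦ j(dτ)` -/
theorem mz2p_jGen_apply (d : ℕ+) (τ τ' : ℍ) (hτ' : (τ' : ℂ) = ((d : ℕ) : ℂ) * τ) :
    S24Lib.jGen d 1 τ = jFun τ' := by
  have hU : 0 < (!![(d : ℤ), 0; 0, 1] : Matrix (Fin 2) (Fin 2) ℤ).det := by
    rw [Fermat.Agent.S22Lib.upper_det, mul_one]
    exact_mod_cast d.pos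
  have hmat : S24Lib.diagMat d * ((1 : Matrix.SpecialLinearGroup (Fin 2) ℤ) :
      Matrix (Fin 2) (Fin 2) ℤ) = !![((d : ℕ) : ℤ), 0; 0, 1] := by
    rw [Matrix.SpecialLinearGroup.coe_one, mul_one]
    rfl
  have h1 : S24Lib.jGen d 1 =
      fun τ => jFun (Fermat.Agent.S22Lib.intGL !![((d : ℕ) : ℤ), 0; 0, 1] hU • τ) := by
    rw [S24Lib.jGen, S24Lib.jMat_congr hmat _ hU]
    rfl
  rw [h1]
  show jFun (Fermat.Agent.S22Lib.intGL !![((d : ℕ) : ℤ), 0; 0, 1] hU • τ) = jFun τ'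
  congr 1
  apply UpperHalfPlane.ext
  rw [Fermat.Agent.S22Lib.coe_intGL_upper_smul, hτ']
  push_cast
  ring

/-- `j_p = j(p·)` is not constant -/
theorem mz2p_Y_ne_const (a : Qb) :
    t2cpYq p p (dvd_refl p) ≠ algebraMap Qb ↥(modularFunctionFieldBar p) a := by
  intro h
  have h1 := congrArg (fun y : ↥(modularFunctionFieldBar p) => (y : LaurentSeries Qb)) h
  simp only [coe_t2cpYq] at h1
  have h2 : ((algebraMap Qb ↥(modularFunctionFieldBar p) a : ↥(modularFunctionFieldBar p)) :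
      LaurentSeries Qb) = HahnSeries.C a := by
    show algebraMap Qb (LaurentSeries Qb) a = HahnSeries.C a
    have h0 : algebraMap Qb (PowerSeries Qb) a = PowerSeries.C a := by simp
    rw [HahnSeries.algebraMap_apply', h0, HahnSeries.ofPowerSeries_C]
  rw [h2] at h1
  have h3 := congrArg HahnSeries.order h1
  rw [S24Lib.order_qExpand p (jqModC_ne_zero_of_nontrivial Qb), S24Lib.order_jqModC,
    HahnSeries.order_C] at h3
  have : (p : ℤ) ≠ 0 := by exact_mod_cast NeZero.ne p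
  omega

open Fermat.Agent.S24Lib in
/-- **(P2-Pl)** the place of `X₀(p)` over `ℚ̄` at `τ`, with the value of `j_p` read off
analytically: `ι j₂ = j(pτ)`. -/
theorem mz2p_place (hp : p.Prime) (τ τ' : ℍ) (hτ' : (τ' : ℂ) = p * τ)
    (j₁ U₁ : Qb) (hj : algebraMap Qb ℂ j₁ = jFun τ)
    (hU : (p : ℂ) ^ 12 * Δ τ' = algebraMap Qb ℂ U₁ * Δ τ) :
    ∃ (x : Place Qb ↥(modularFunctionFieldBar p)) (j₂ : Qb),
      OrdGE x (tbJ p - algebraMap Qb ↥(modularFunctionFieldBar p) j₁) 1 ∧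
      OrdGE x (mzgU p p (dvd_refl p) - algebraMap Qb ↥(modularFunctionFieldBar p) U₁) 1 ∧
      OrdGE x (t2cpYq p p (dvd_refl p) - algebraMap Qb ↥(modularFunctionFieldBar p) j₂) 1 ∧
      algebraMap Qb ℂ j₂ = jFun τ' := by
  set x := barPlace Qb p (pointPlace Qb p τ j₁ hj) with hx
  -- `j`
  have hxj : 0 < x.ord (tbJ p - algebraMap Qb ↥(modularFunctionFieldBar p) j₁) := by
    obtain ⟨e, he, hord⟩ := exists_ord_barPlace Qb p (pointPlace Qb p τ j₁ hj)
    have h1 := hord (tbJ p - algebraMap Qb ↥(modularFunctionFieldBar p) j₁)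
    have h2 : ((modIso Qb p (tbJ p - algebraMap Qb ↥(modularFunctionFieldBar p) j₁) : anField Qb p)
        : ModField Qb p) = jL Qb p - algebraMap Qb (ModField Qb p) j₁ := by
      rw [map_sub, AlgEquiv.commutes]
      have : tbJ p = jBar Qb p := rfl
      rw [this]
      show ((modIso Qb p (jBar Qb p) : anField Qb p) : ModField Qb p) - _ = _
      rw [modIso_jBar Qb]
      rfl
    rw [h2] at h1
    have h3 := pointPlace_ord_pos Qb p τ j₁ hj
    rw [h1] at h3
    exact (pos_iff_pos_of_mul_pos h3).mp (by exact_mod_cast he)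
  -- `U_p`
  have hxU : 0 < x.ord (mzgpU p - algebraMap Qb ↥(modularFunctionFieldBar p) U₁) := by
    have hψ := psiInf_qLaurent p
    have hval : algebraMap Qb ℂ U₁ = psiInf p τ := by
      rw [mzgp_psiInf_apply p τ τ' hτ', hU]
      field_simp [discriminant_ne_zero τ]
    exact (mz2p_bar_eval_iff (mzgpU p) (psiInf p) hψ.1
      (by rw [modFieldQL_modIso Qb, mzgp_coeffMap_U, hψ.2]) τ j₁ hj U₁
      (by
        intro h0
        apply mzgp_U_ne_const hp.two_le U₁
        rw [h0, AlgEquiv.commutes]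
        rfl)).mpr hval
  have hxj' : OrdGE x (tbJ p - algebraMap Qb ↥(modularFunctionFieldBar p) j₁) 1 :=
    (ordGE_iff x).mpr (Or.inr (by omega))
  have hxU' : OrdGE x (mzgU p p (dvd_refl p) - algebraMap Qb ↥(modularFunctionFieldBar p) U₁) 1 :=
    (ordGE_iff x).mpr (Or.inr (by
      have : mzgU p p (dvd_refl p) = mzgpU p := rfl
      rw [this]; omega))
  obtain ⟨j₂, hj₂, -, -⟩ := mzg_convert_rel hp x j₁ U₁ hxj' hxU'
  refine ⟨x, j₂, hxj', hxU', hj₂, ?_⟩
  -- read off the value of `j_p`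
  set d : ℕ+ := ⟨p, Nat.pos_of_ne_zero (NeZero.ne p)⟩ with hd
  have hmem : S24Lib.jGen d 1 ∈ modRing Qb p := jGen_mem_modRing Qb p (d := d) (dvd_refl p) 1
  have hQL : IsQLaurentable p (S24Lib.jGen d 1) := (modRing_props Qb p hmem).1
  have hu : modFieldQL Qb p ((modIso Qb p (t2cpYq p p (dvd_refl p)) : anField Qb p) :
      ModField Qb p) = qLaurent p (S24Lib.jGen d 1) := by
    have h1 := t2cp_mdF_Y Qb p d (dvd_refl p)
    have h2 : t2cpYq p p (dvd_refl p) = t2cpY Qb p (d : ℕ) (dvd_refl p) := rfl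
    rw [h2]
    change modFieldQL Qb p (mdF Qb p (t2cpY Qb p (d : ℕ) (dvd_refl p))) = _
    rw [h1, KMod.jGenL, modFieldQL_algebraMap Qb, modRingQL_apply Qb]
    rfl
  have hpos : 0 < x.ord (t2cpYq p p (dvd_refl p) -
      algebraMap Qb ↥(modularFunctionFieldBar p) j₂) := by
    rcases (ordGE_iff x).mp hj₂ with h0 | h0
    · exact absurd (sub_eq_zero.mp h0) (mz2p_Y_ne_const j₂)
    · omega
  have := (mz2p_bar_eval_iff (t2cpYq p p (dvd_refl p)) (S24Lib.jGen d 1) hQL hu τ j₁ hj j₂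
    (mz2p_Y_ne_const j₂)).mp hpos
  rw [this]
  exact mz2p_jGen_apply d τ τ' hτ'

end Bar

section Chain

variable {p : ℕ} [NeZero p]

open Fermat.Agent.S24Lib in
/-- **(P2-Pl)** the chain of places of `X₀(p)` at `τ, pτ, …, p^(k-1) τ`. -/
theorem mz2p_chain (hp : p.Prime) (τ : ℍ) (k : ℕ) (J₀ : Qb)
    (hJ₀ : algebraMap Qb ℂ J₀ = jFun τ) (U : ℕ → Qb)
    (hU : ∀ i < k, ∀ τi τi' : ℍ, (τi : ℂ) = (p : ℂ) ^ i * τ → (τi' : ℂ) = (p : ℂ) ^ (i + 1) * τ →
      (p : ℂ) ^ 12 * Δ τi' = algebraMap Qb ℂ (U i) * Δ τi) :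
    ∃ (J : ℕ → Qb) (x : ℕ → Place Qb ↥(modularFunctionFieldBar p)), J 0 = J₀ ∧
      (∀ i ≤ k, ∀ τi : ℍ, (τi : ℂ) = (p : ℂ) ^ i * τ → algebraMap Qb ℂ (J i) = jFun τi) ∧
      ∀ i < k,
        OrdGE (x i) (tbJ p - algebraMap Qb ↥(modularFunctionFieldBar p) (J i)) 1 ∧
        OrdGE (x i) (mzgU p p (dvd_refl p) -
          algebraMap Qb ↥(modularFunctionFieldBar p) (U i)) 1 ∧
        OrdGE (x i) (t2cpYq p p (dvd_refl p) -
          algebraMap Qb ↥(modularFunctionFieldBar p) (J (i + 1))) 1 := by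
  have hp0 : (0 : ℝ) < p := by exact_mod_cast hp.pos
  -- the points `p^i τ`
  have him : ∀ i : ℕ, 0 < ((p : ℂ) ^ i * τ).im := by
    intro i
    have : ((p : ℂ) ^ i * τ).im = ((p ^ i : ℕ) : ℝ) * τ.im := by
      rw [← Nat.cast_pow, Complex.mul_im, Complex.natCast_re, Complex.natCast_im, zero_mul,
        add_zero]
      rfl
    rw [this]
    exact mul_pos (by exact_mod_cast pow_pos hp.pos i) τ.im_pos
  set T : ℕ → ℍ := fun i => ⟨(p : ℂ) ^ i * τ, him i⟩ with hT
  have hTcoe : ∀ i, ((T i : ℍ) : ℂ) = (p : ℂ) ^ i * τ := fun i => rfl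
  have hTsucc : ∀ i, ((T (i + 1) : ℍ) : ℂ) = p * (T i : ℍ) := by
    intro i
    rw [hTcoe, hTcoe, pow_succ]
    ring
  induction k with
  | zero =>
    refine ⟨fun _ => J₀, fun _ => barPlace Qb p (pointPlace Qb p τ J₀ hJ₀), rfl, ?_, ?_⟩
    · intro i hi τi hτi
      have hi0 : i = 0 := Nat.le_zero.mp hi
      subst hi0
      have : τi = τ := by
        apply UpperHalfPlane.ext
        rw [hτi]; simp
      rw [this]; exact hJ₀
    · intro i hi
      exact absurd hi (Nat.not_lt_zero i)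
  | succ k ih =>
    obtain ⟨J, x, hJ0, hJ, hx⟩ := ih (fun i hi => hU i (Nat.lt_succ_of_lt hi))
    have hJk : algebraMap Qb ℂ (J k) = jFun (T k) := hJ k le_rfl (T k) (hTcoe k)
    have hUk := hU k (Nat.lt_succ_self k) (T k) (T (k + 1)) (hTcoe k) (hTcoe (k + 1))
    obtain ⟨xk, j₂, h1, h2, h3, h4⟩ := mz2p_place hp (T k) (T (k + 1)) (hTsucc k) (J k) (U k)
      hJk hUk
    refine ⟨fun i => if i ≤ k then J i else j₂, fun i => if i < k then x i else xk, ?_, ?_, ?_⟩
    · simp only [Nat.zero_le, if_true]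
      exact hJ0
    · intro i hi τi hτi
      by_cases hik : i ≤ k
      · simp only [hik, if_true]
        exact hJ i hik τi hτi
      · have hik' : i = k + 1 := by omega
        simp only [hik, if_false]
        have : τi = T (k + 1) := by
          apply UpperHalfPlane.ext
          rw [hτi, hTcoe, hik']
        rw [this]; exact h4
    · intro i hi
      by_cases hik : i < k
      · have h1' : i ≤ k := hik.le
        have h2' : i + 1 ≤ k := hik
        simp only [hik, h1', h2', if_true]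
        exact hx i hik
      · have hik' : i = k := by omega
        subst hik'
        have h1' : i ≤ i := le_rfl
        have h2' : ¬ (i + 1 ≤ i) := by omega
        simp only [hik, h1', h2', if_true, if_false]
        exact ⟨h1, h2, h3⟩

end Chain

end Fermat.Agent.Mazur2
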